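import Fermat.Agent.KoksmaClass.Main

/-!
# Wirsing's second inequality

In the box `|p 1| ≤ N ^ a`, `|p i| ≤ N` for `i ≥ 2` there is a `p` with
`|P x| ≤ N ^ (-(a + n - 1))`. When `w n < a + n - 1` its linear coefficient dominates, so `P` is
monotone near `x` and has a real root within `≪ |P x| / H(P)` of `x`; thus
`w n / (w n - n + 1) ≤ w* n`.
-/

set_option autoImplicit false

noncomputable section

open Polynomial Filter FA.WirsingApprox FA.MahlerClass
open scoped Topology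

namespace FA.KoksmaClass

theorem notAlgebraic_of_transcendental {x : ℝ} (hx : Transcendental ℤ x) (n : ℕ) :
    NotAlgebraic x n := fun f hf _ h => hx ⟨f, hf, h⟩

/-- **The box principle with a bound on each coefficient.** -/
theorem exists_boxed_polyEval {n : ℕ} (hn : 0 < n) (x : ℝ) {B : Fin n → ℕ} (hB : ∀ i, 0 < B i) :
    ∃ p : Fin (n + 1) → ℤ, p ≠ 0 ∧ (∀ i : Fin n, |p i.succ| ≤ B i) ∧
      |polyEval p x| ≤ 1 / ((∏ i, B i : ℕ) : ℝ) := by
  classical
  set M := ∏ i, B i with hM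
  have hM0 : 0 < M := Finset.prod_pos fun i _ => hB i
  have hMR : (0 : ℝ) < M := Nat.cast_pos.2 hM0
  set S : (Fin n → ℕ) → ℝ := fun m => ∑ i, (m i : ℝ) * x ^ ((i : ℕ) + 1) with hS
  have hcard : (Finset.range M).card < (Fintype.piFinset fun i => Finset.range (B i + 1)).card := by
    have : Nonempty (Fin n) := ⟨⟨0, hn⟩⟩
    simp only [Finset.card_range, Fintype.card_piFinset]
    exact Finset.prod_lt_prod_of_nonempty (fun i _ => hB i) (fun i _ => Nat.lt_succ_self _)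
      Finset.univ_nonempty
  obtain ⟨m, hm, m', hm', hne, he⟩ := Finset.exists_ne_map_eq_of_card_lt_of_maps_to hcard
    (f := fun m => ⌊Int.fract (S m) * M⌋₊) (fun m _ => Finset.mem_coe.2 <| Finset.mem_range.2 <|
      (Nat.floor_lt (mul_nonneg (Int.fract_nonneg _) hMR.le)).2
        (mul_lt_of_lt_one_left hMR (Int.fract_lt_one _)))
  simp only [Fintype.mem_piFinset, Finset.mem_range, Nat.lt_succ_iff] at hm hm'
  refine ⟨Fin.cons (-(⌊S m⌋ - ⌊S m'⌋)) fun i => (m i : ℤ) - m' i, fun h => hne ?_, fun i => ?_,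
    ?_⟩
  · funext i
    simpa [sub_eq_zero] using congrFun h i.succ
  · rw [Fin.cons_succ, abs_le]
    constructor <;> linarith [Int.ofNat_le.2 (hm i), Int.ofNat_le.2 (hm' i),
      Int.natCast_nonneg (m i), Int.natCast_nonneg (m' i)]
  · have hev : polyEval (Fin.cons (-(⌊S m⌋ - ⌊S m'⌋)) fun i => (m i : ℤ) - m' i) x =
        Int.fract (S m) - Int.fract (S m') := by
      simp only [polyEval, Fin.sum_univ_succ, Fin.cons_zero, Fin.cons_succ, Fin.val_zero, pow_zero,
        Fin.val_succ, Int.fract, hS]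
      push_cast
      simp only [sub_mul, Finset.sum_sub_distrib]
      ring
    rw [hev, le_div_iff₀ hMR, ← abs_of_pos hMR, ← abs_mul, sub_mul, abs_le]
    have h1 := Nat.floor_le (mul_nonneg (Int.fract_nonneg (S m)) hMR.le)
    have h2 := Nat.lt_floor_add_one (Int.fract (S m) * M)
    have h3 := Nat.floor_le (mul_nonneg (Int.fract_nonneg (S m')) hMR.le)
    have h4 := Nat.lt_floor_add_one (Int.fract (S m') * M)
    rw [he] at h1 h2
    constructor <;> linarith

theorem polyEval_ne_zero_of_notAlgebraic {n : ℕ} {x : ℝ} (hx : NotAlgebraic x n)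
    {p : Fin (n + 1) → ℤ} (hp : p ≠ 0) : polyEval p x ≠ 0 := by
  rw [polyEval_eq_aeval]
  exact hx _ (fun h => hp (funext fun i => by
    rw [← coeff_polyOf p i, polyOf, h, coeff_zero, Pi.zero_apply])) (natDegree_polyOf p)

/-- With `w n < w`, if `x` is algebraic of no degree `≤ n`, the values of integer polynomials
at `x` are `≫ H ^ (-w)`. -/
theorem exists_lower_bound {n : ℕ} {x w : ℝ} (hx : NotAlgebraic x n)
    (h : mahlerExp n x < w) :
    ∃ δ : ℝ, 0 < δ ∧ ∀ p : Fin (n + 1) → ℤ, p ≠ 0 → δ * ‖p‖ ^ (-w) ≤ |polyEval p x| := by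
  have hfin := finite_of_mahlerExp_lt h
  obtain ⟨δ, hδ, hδ1, hmin⟩ : ∃ δ > 0, δ ≤ 1 ∧
      ∀ p ∈ hfin.toFinset, δ ≤ |polyEval p x| * ‖p‖ ^ w := by
    rcases hfin.toFinset.eq_empty_or_nonempty with h0 | h0
    · exact ⟨1, one_pos, le_rfl, fun p hp => absurd hp (by rw [h0]; exact Finset.notMem_empty p)⟩
    · obtain ⟨p, hp, hmin⟩ :=
        hfin.toFinset.exists_min_image (fun p => |polyEval p x| * ‖p‖ ^ w) h0
      have hp' := hfin.mem_toFinset.1 hp
      exact ⟨min 1 (|polyEval p x| * ‖p‖ ^ w), lt_min one_pos (mul_pos (abs_pos.2 hp'.1)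
        (Real.rpow_pos_of_pos (norm_pos_iff.2 (ne_zero_of_mem hp')) _)), min_le_left _ _,
        fun q hq => (min_le_right _ _).trans (hmin q hq)⟩
  refine ⟨δ, hδ, fun p hp => ?_⟩
  have hp0 : 0 < ‖p‖ := norm_pos_iff.2 hp
  by_cases hmem : p ∈ smallSet n x w
  · rw [Real.rpow_neg hp0.le, ← div_eq_mul_inv, div_le_iff₀ (Real.rpow_pos_of_pos hp0 _)]
    exact hmin p (hfin.mem_toFinset.2 hmem)
  · exact (mul_le_of_le_one_left (Real.rpow_nonneg hp0.le _) hδ1).trans
      (le_of_lt (not_le.1 fun hle => hmem ⟨polyEval_ne_zero_of_notAlgebraic hx hp, hle⟩))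

/-- A dominant linear coefficient gives a real root within `4 |P x| / |p 1|`. -/
theorem exists_root_of_dominant {k : ℕ} {x : ℝ} {p : Fin (k + 2) → ℤ}
    (hdom : 2 * (∑ i : Fin k, |(p i.succ.succ : ℝ)| *
      (((i : ℕ) + 2 : ℕ) * (|x| + 1) ^ ((i : ℕ) + 1))) ≤ |(p 1 : ℝ)|)
    (hp1 : p 1 ≠ 0) (hsmall : 4 * |polyEval p x| ≤ |(p 1 : ℝ)|) :
    ∃ α : ℝ, polyEval p α = 0 ∧ |x - α| ≤ 4 * |polyEval p x| / |(p 1 : ℝ)| := by
  have ha : 0 < |(p 1 : ℝ)| := abs_pos.2 (Int.cast_ne_zero.2 hp1)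
  set r := 4 * |polyEval p x| / |(p 1 : ℝ)| with hr
  have hr0 : 0 ≤ r := by positivity
  have hr1 : r ≤ 1 := (div_le_one ha).2 hsmall
  have hexp : ∀ t : ℝ, |t| ≤ 1 →
      |polyEval p (x + t) - polyEval p x - p 1 * t| ≤ |(p 1 : ℝ)| / 2 * |t| := by
    intro t ht
    have hsum : polyEval p (x + t) - polyEval p x - p 1 * t =
        ∑ i : Fin k, (p i.succ.succ : ℝ) * ((x + t) ^ ((i : ℕ) + 2) - x ^ ((i : ℕ) + 2)) := by
      simp only [polyEval, Fin.sum_univ_succ, Fin.val_zero, pow_zero, Fin.val_succ,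
        Fin.succ_zero_eq_one, mul_sub, Finset.sum_sub_distrib]
      ring
    rw [hsum]
    refine (Finset.abs_sum_le_sum_abs _ _).trans ?_
    calc ∑ i : Fin k, |(p i.succ.succ : ℝ) * ((x + t) ^ ((i : ℕ) + 2) - x ^ ((i : ℕ) + 2))|
        ≤ ∑ i : Fin k, |(p i.succ.succ : ℝ)| *
            (((i : ℕ) + 2 : ℕ) * (|x| + 1) ^ ((i : ℕ) + 1)) * |t| := by
          refine Finset.sum_le_sum fun i _ => ?_
          rw [abs_mul, mul_assoc]
          refine mul_le_mul_of_nonneg_left ?_ (abs_nonneg _)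
          refine (abs_pow_sub_pow_le _ _ _).trans ?_
          rw [add_sub_cancel_left, mul_assoc |t|, mul_comm |t|,
            show (i : ℕ) + 2 - 1 = (i : ℕ) + 1 by omega]
          gcongr
          exact max_le ((abs_add_le _ _).trans (by linarith)) (by linarith [abs_nonneg t])
      _ ≤ |(p 1 : ℝ)| / 2 * |t| := by
          rw [← Finset.sum_mul]
          exact mul_le_mul_of_nonneg_right (by linarith) (abs_nonneg _)
  have hcont : Continuous fun y : ℝ => polyEval p y := by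
    unfold polyEval
    fun_prop
  have h1 := abs_le.1 (hexp r (by rwa [abs_of_nonneg hr0]))
  have h2 := abs_le.1 (hexp (-r) (by rwa [abs_neg, abs_of_nonneg hr0]))
  rw [abs_of_nonneg hr0] at h1
  rw [abs_neg, abs_of_nonneg hr0, ← sub_eq_add_neg] at h2
  have hra : |(p 1 : ℝ)| * r = 4 * |polyEval p x| := mul_div_cancel₀ _ ha.ne'
  have hmem : (0 : ℝ) ∈ Set.uIcc (polyEval p (x - r)) (polyEval p (x + r)) := by
    rw [Set.mem_uIcc]
    rcases abs_cases (p 1 : ℝ) with ⟨he, -⟩ | ⟨he, -⟩ <;> rw [he] at hra h1 h2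
    · exact Or.inl ⟨by linarith [h2.2, le_abs_self (polyEval p x)],
        by linarith [h1.1, neg_abs_le (polyEval p x)]⟩
    · exact Or.inr ⟨by linarith [h1.2, le_abs_self (polyEval p x)],
        by linarith [h2.1, neg_abs_le (polyEval p x)]⟩
  obtain ⟨α, hα, h0⟩ := intermediate_value_uIcc hcont.continuousOn hmem
  rw [Set.uIcc_of_le (by linarith)] at hα
  exact ⟨α, h0, abs_le.2 ⟨by linarith [hα.2], by linarith [hα.1]⟩⟩

/-- **Polynomials with a dominant linear coefficient give good approximations.** -/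
theorem koksmaExp_ge_of_lt {n : ℕ} (hn : 1 ≤ n) {x w a : ℝ} (hx : NotAlgebraic x n)
    (hw : mahlerExp n x < w) (ha : 1 ≤ a) (hwa : w < a + n - 1) :
    (((a + n - 1) / a : ℝ) : EReal) ≤ koksmaExp n x := by
  obtain ⟨k, rfl⟩ : ∃ k, n = k + 1 := ⟨n - 1, by omega⟩
  have hb : a + ((k + 1 : ℕ) : ℝ) - 1 = a + k := by push_cast; ring
  rw [hb] at hwa ⊢
  obtain ⟨δ, hδ, hlow⟩ := exists_lower_bound hx hw
  have hw0 : 0 < w := by
    have h := EReal.coe_lt_coe_iff.1
      ((le_mahlerExp_of_forall_ne_zero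
        (fun _ hp => polyEval_ne_zero_of_notAlgebraic hx hp) k.succ_pos).trans_lt hw)
    exact (Nat.cast_nonneg _).trans_lt h
  have ha0 : (0 : ℝ) < a := by linarith
  have hk0 : (0 : ℝ) ≤ k := Nat.cast_nonneg k
  set b := a + k with hbdef
  set R := |x| + 1 with hR
  have hR0 : 0 ≤ |x| := abs_nonneg x
  have hR1 : 1 ≤ R := by linarith
  set D := ∑ i : Fin k, (((i : ℕ) + 2 : ℕ) : ℝ) * R ^ ((i : ℕ) + 1) with hD
  set E := ∑ i : Fin k, |x| ^ ((i : ℕ) + 2) with hE
  have hD0 : 0 ≤ D := Finset.sum_nonneg fun i _ => by positivity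
  have hE0 : 0 ≤ E := Finset.sum_nonneg fun i _ => by positivity
  set c := |x| + E + 2 with hc
  have hc0 : 0 < c := by linarith
  set e := b / a with he
  have he0 : 0 < e := by positivity
  set G := 8 * c * (4 * c) ^ e * (2 ^ (k + 1) * ((k : ℝ) + 2)) ^ (e + 1) with hG
  refine le_koksmaExp_of_bound (C := G) fun hfin => ?_
  obtain ⟨ε, hε, hsep⟩ : ∃ ε > 0, ∀ α ∈ hfin.toFinset, ε ≤ |x - α| := by
    rcases hfin.toFinset.eq_empty_or_nonempty with h0 | h0
    · exact ⟨1, one_pos, fun α hα => absurd hα (by rw [h0]; exact Finset.notMem_empty α)⟩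
    · obtain ⟨α, hα, hmin⟩ := hfin.toFinset.exists_min_image (fun α => |x - α|) h0
      exact ⟨|x - α|, abs_pos.2 (sub_ne_zero.2 (hfin.mem_toFinset.1 hα).1.symm), hmin⟩
  set K := max (c * (2 * D + 5)) 1 with hK
  have hK1 : 1 ≤ K := le_max_right _ _
  have hgrow : ∀ᶠ N : ℕ in atTop, K ^ w < δ * (N : ℝ) ^ (b - w) ∧ 4 / ε < (N : ℝ) :=
    tendsto_natCast_atTop_atTop.eventually ((((tendsto_rpow_atTop (sub_pos.2 hwa)).const_mul_atTop
      hδ).eventually_gt_atTop _).and (eventually_gt_atTop _))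
  obtain ⟨N, ⟨hN, hNε⟩, hN0⟩ := (hgrow.and (eventually_gt_atTop 0)).exists
  have hNR : (1 : ℝ) ≤ N := Nat.one_le_cast.2 hN0
  have hN' : (0 : ℝ) < N := by linarith
  have hNa : (N : ℝ) ≤ (N : ℝ) ^ a := Real.self_le_rpow_of_one_le hNR ha
  set A := ⌈(N : ℝ) ^ a⌉₊ with hA
  have hA0 : 0 < A := Nat.ceil_pos.2 (Real.rpow_pos_of_pos hN' a)
  have hA1 : (N : ℝ) ^ a ≤ A := Nat.le_ceil _
  have hA2 : (A : ℝ) ≤ 2 * (N : ℝ) ^ a := by
    linarith [(Nat.ceil_lt_add_one (Real.rpow_nonneg hN'.le a)).le]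
  obtain ⟨p, hp, hpB, hpe⟩ := exists_boxed_polyEval k.succ_pos x
    (B := Fin.cons A fun _ => N) (Fin.cases hA0 fun _ => hN0)
  set L := |polyEval p x| with hL
  have hpL : L ≤ (N : ℝ) ^ (-b) := by
    refine hpe.trans ?_
    rw [Fin.prod_univ_succ, Real.rpow_neg hN'.le, one_div]
    refine inv_anti₀ (Real.rpow_pos_of_pos hN' _) ?_
    simp only [Fin.cons_zero, Fin.cons_succ, Finset.prod_const, Finset.card_univ,
      Fintype.card_fin]
    push_cast
    rw [hbdef, Real.rpow_add hN', Real.rpow_natCast]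
    exact mul_le_mul_of_nonneg_right hA1 (by positivity)
  have hL1 : L ≤ 1 := hpL.trans (Real.rpow_le_one_of_one_le_of_nonpos hNR (by linarith))
  have hp1A : |(p 1 : ℝ)| ≤ A := by
    have h := hpB 0
    rw [Fin.succ_zero_eq_one, Fin.cons_zero] at h
    exact_mod_cast h
  have hpi : ∀ i : Fin k, |(p i.succ.succ : ℝ)| ≤ N := fun i => by
    have h := hpB i.succ
    rw [Fin.cons_succ] at h
    exact_mod_cast h
  have hp0 : |(p 0 : ℝ)| ≤ |(p 1 : ℝ)| * |x| + E * N + 1 := by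
    have hev : (p 0 : ℝ) = polyEval p x - p 1 * x
        - ∑ i : Fin k, (p i.succ.succ : ℝ) * x ^ ((i : ℕ) + 2) := by
      simp only [polyEval, Fin.sum_univ_succ, Fin.val_zero, pow_zero, Fin.val_succ,
        Fin.succ_zero_eq_one]
      ring
    have hsum : |∑ i : Fin k, (p i.succ.succ : ℝ) * x ^ ((i : ℕ) + 2)| ≤ E * N := by
      refine (Finset.abs_sum_le_sum_abs _ _).trans ?_
      rw [hE, Finset.sum_mul]
      refine Finset.sum_le_sum fun i _ => ?_
      rw [abs_mul, abs_pow, mul_comm]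
      exact mul_le_mul_of_nonneg_left (hpi i) (by positivity)
    rw [hev]
    refine (abs_sub _ _).trans ((add_le_add (abs_sub _ _) hsum).trans ?_)
    rw [abs_mul]
    linarith
  have hnorm : ‖p‖ ≤ c * (|(p 1 : ℝ)| + N) := by
    have hp1n := abs_nonneg (p 1 : ℝ)
    refine (pi_norm_le_iff_of_nonneg (by positivity)).2 (Fin.cases ?_ (Fin.cases ?_ fun i => ?_))
    · rw [Int.norm_eq_abs]
      nlinarith
    · rw [Fin.succ_zero_eq_one, Int.norm_eq_abs]
      nlinarith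
    · rw [Int.norm_eq_abs]
      nlinarith [hpi i]
  have hH1 : 1 ≤ ‖p‖ := Transference.one_le_norm_intVector hp
  have hKN : K * N < ‖p‖ := by
    by_contra! hle
    have h1 := (hlow p hp).trans hpL
    rw [Real.rpow_neg (norm_nonneg p), ← div_eq_mul_inv,
      div_le_iff₀ (Real.rpow_pos_of_pos (by linarith) _)] at h1
    have h2 : δ ≤ (N : ℝ) ^ (-b) * (K ^ w * (N : ℝ) ^ w) := by
      rw [← Real.mul_rpow (by linarith) hN'.le]
      exact h1.trans (mul_le_mul_of_nonneg_left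
        (Real.rpow_le_rpow (norm_nonneg p) hle hw0.le) (Real.rpow_nonneg hN'.le _))
    rw [mul_left_comm, ← Real.rpow_add hN', show -b + w = -(b - w) by ring,
      Real.rpow_neg hN'.le, ← div_eq_mul_inv, le_div_iff₀ (Real.rpow_pos_of_pos hN' _)] at h2
    linarith
  have hbig : (2 * D + 4) * N ≤ |(p 1 : ℝ)| := by
    have h : c * (2 * D + 5) * N ≤ K * N := mul_le_mul_of_nonneg_right (le_max_left _ _) hN'.le
    nlinarith
  have hp1N : (N : ℝ) ≤ |(p 1 : ℝ)| := by nlinarith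
  have hp1pos : 0 < |(p 1 : ℝ)| := by linarith
  have hnorm' : ‖p‖ ≤ 2 * c * |(p 1 : ℝ)| := by nlinarith
  obtain ⟨α, hα0, hαd⟩ := exists_root_of_dominant (x := x) (p := p) (by
      have : ∑ i : Fin k, |(p i.succ.succ : ℝ)| *
          (((i : ℕ) + 2 : ℕ) * (|x| + 1) ^ ((i : ℕ) + 1)) ≤ N * D := by
        rw [hD, Finset.mul_sum]
        exact Finset.sum_le_sum fun i _ => mul_le_mul_of_nonneg_right (hpi i) (by positivity)
      nlinarith) (fun h => by rw [h] at hp1pos; simp at hp1pos)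
    (by rw [← hL]; nlinarith)
  have hlt : |x - α| < ε := by
    refine hαd.trans_lt ((div_lt_iff₀ hp1pos).2 ?_)
    have h4 : 4 < ε * N := by rw [div_lt_iff₀ hε] at hNε; linarith
    rw [← hL]
    nlinarith
  set P := polyOf p with hPdef
  have hev : ∀ y : ℝ, aeval y P = polyEval p y := fun y => (polyEval_eq_aeval p y).symm
  have hP0 : P ≠ 0 := fun h =>
    polyEval_ne_zero_of_notAlgebraic hx hp (by rw [← hev, h, map_zero])
  obtain ⟨f, hf, hfd, hf0, hf1⟩ := exists_irreducible_factor hP0 (by rw [hev]; exact hα0)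
  have hfn : f.natDegree ≤ k + 1 := (natDegree_le_of_dvd hfd hP0).trans (natDegree_polyOf p)
  have hhf : height f ≤ 2 ^ (k + 1) * (((k : ℝ) + 2) * ‖p‖) := by
    have hle : mahler f ≤ mahler P := by
      obtain ⟨g, hg⟩ := hfd
      rw [hg, mahler_mul]
      exact le_mul_of_one_le_right (zero_le_one.trans (one_le_mahler hf.ne_zero))
        (one_le_mahler fun h => hP0 (by rw [hg, h, mul_zero]))
    refine (height_le_mahler hf.ne_zero hfn).trans (mul_le_mul_of_nonneg_left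
      (hle.trans ((mahler_le_height (natDegree_polyOf p)).trans_eq ?_)) (by positivity))
    rw [height_polyOf]
    push_cast
    ring
  refine (hsep α (hfin.mem_toFinset.2 ⟨fun h => hx f hf.ne_zero hfn (h ▸ hf0),
    f, hf, hf1, hfn, hf0, ?_⟩)).not_gt hlt
  have hnormN : ‖p‖ ≤ 2 * c * ((N : ℝ) ^ a * 2) := by nlinarith
  have hLe : L * (‖p‖ / (2 * c * 2)) ^ e ≤ 1 := by
    refine (mul_le_mul_of_nonneg_right hpL (by positivity)).trans ?_
    have h : ‖p‖ / (2 * c * 2) ≤ (N : ℝ) ^ a := by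
      rw [div_le_iff₀ (by positivity)]
      linarith
    refine (mul_le_mul_of_nonneg_left (Real.rpow_le_rpow (by positivity) h he0.le)
      (by positivity)).trans ?_
    rw [← Real.rpow_mul hN'.le, ← Real.rpow_add hN', he, mul_div_cancel₀ _ ha0.ne',
      neg_add_cancel, Real.rpow_zero]
  have hdist : |x - α| * ‖p‖ ^ (e + 1) ≤ 8 * c * (4 * c) ^ e := by
    have h1 : |x - α| * |(p 1 : ℝ)| ≤ 4 * L := by rwa [← le_div_iff₀ hp1pos]
    rw [show 2 * c * 2 = 4 * c by ring, Real.div_rpow (norm_nonneg _) (by linarith), mul_div_assoc',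
      div_le_one (Real.rpow_pos_of_pos (by linarith) _)] at hLe
    rw [Real.rpow_add (by linarith : 0 < ‖p‖), Real.rpow_one]
    calc |x - α| * (‖p‖ ^ e * ‖p‖) ≤ |x - α| * (‖p‖ ^ e * (2 * c * |(p 1 : ℝ)|)) := by gcongr
      _ = |x - α| * |(p 1 : ℝ)| * ‖p‖ ^ e * (2 * c) := by ring
      _ ≤ 4 * L * ‖p‖ ^ e * (2 * c) := by gcongr
      _ ≤ 8 * c * (4 * c) ^ e := by nlinarith
  have hf1' := one_le_height hf.ne_zero
  rw [Real.rpow_neg (by linarith), ← div_eq_mul_inv, le_div_iff₀ (by positivity)]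
  calc |x - α| * height f ^ (e + 1)
      ≤ |x - α| * ((2 ^ (k + 1) * ((k : ℝ) + 2)) ^ (e + 1) * ‖p‖ ^ (e + 1)) := by
        refine mul_le_mul_of_nonneg_left ?_ (abs_nonneg _)
        rw [← Real.mul_rpow (by positivity) (norm_nonneg _)]
        exact Real.rpow_le_rpow (by linarith) (hhf.trans_eq (by ring)) (by linarith)
    _ = (2 ^ (k + 1) * ((k : ℝ) + 2)) ^ (e + 1) * (|x - α| * ‖p‖ ^ (e + 1)) := by ring
    _ ≤ (2 ^ (k + 1) * ((k : ℝ) + 2)) ^ (e + 1) * (8 * c * (4 * c) ^ e) :=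
        mul_le_mul_of_nonneg_left hdist (by positivity)
    _ = G := by rw [hG]; ring

/-- **Wirsing: `w n / (w n - n + 1) ≤ w* n`.** -/
theorem div_le_koksmaExp {n : ℕ} (hn : 1 ≤ n) {x W : ℝ} (hx : NotAlgebraic x n)
    (hW : mahlerExp n x ≤ (W : EReal)) :
    ((W / (W - n + 1) : ℝ) : EReal) ≤ koksmaExp n x := by
  have hWn : (n : ℝ) ≤ W :=
    EReal.coe_le_coe_iff.1 ((le_mahlerExp_of_forall_ne_zero
      (fun _ hp => polyEval_ne_zero_of_notAlgebraic hx hp) (by omega)).trans hW)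
  have hn1 : (1 : ℝ) ≤ n := by exact_mod_cast hn
  refine EReal.ge_of_forall_gt_iff_ge.1 fun v hv => ?_
  rw [EReal.coe_lt_coe_iff] at hv
  have hcont : ContinuousAt (fun a : ℝ => (a + n - 1) / a) (W - n + 1) :=
    ((continuousAt_id.add continuousAt_const).sub continuousAt_const).div continuousAt_id
      (show W - n + 1 ≠ 0 by linarith)
  have hlim : (W - n + 1 + n - 1) / (W - n + 1) = W / (W - n + 1) := by
    congr 1
    ring
  obtain ⟨a, hav, ha⟩ := (((hcont.tendsto.mono_left nhdsWithin_le_nhds).eventually_const_lt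
    (by rwa [hlim])).and (eventually_mem_nhdsWithin (s := Set.Ioi (W - n + 1)))).exists
  rw [Set.mem_Ioi] at ha
  refine le_trans (EReal.coe_le_coe_iff.2 hav.le)
    (koksmaExp_ge_of_lt hn hx (w := (W + a + n - 1) / 2)
      (hW.trans_lt (EReal.coe_lt_coe_iff.2 (by linarith))) (by linarith) (by linarith))

/-- `w n = n` gives `w* n = n`. -/
theorem koksmaExp_eq_of_mahlerExp_eq {n : ℕ} (hn : 1 ≤ n) {x : ℝ} (hx : NotAlgebraic x n)
    (h : mahlerExp n x = ((n : ℝ) : EReal)) : koksmaExp n x = ((n : ℝ) : EReal) := by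
  refine le_antisymm ((koksmaExp_le_mahlerExp n x).trans h.le) ?_
  have h1 := div_le_koksmaExp hn hx h.le
  rwa [sub_self, zero_add, div_one] at h1

end FA.KoksmaClass
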