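import Fermat.Agent.KoksmaClass.Dominant
import Fermat.Agent.Root.SummarySubspace

/-!
# The exponents of algebraic numbers

At a real algebraic number of degree `d` both `w n` and `w* n` are `min n (d - 1)`: Schmidt's
theorem gives `w n ≤ n` for `n < d`, Liouville's inequality `w n ≤ d - 1`, and the box principle
with a dominant linear coefficient the approximations.
-/

set_option autoImplicit false

noncomputable section

open Polynomial Filter FA.WirsingApprox FA.MahlerClass
open scoped Topology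

namespace FA.KoksmaClass

/-- Below its degree an algebraic number is algebraic of no degree. -/
theorem notAlgebraic_of_lt_degree {x : ℝ} {n : ℕ}
    (hn : n < (minpoly ℚ x).natDegree) : NotAlgebraic x n := by
  intro g hg hgn h0
  have hinj : Function.Injective (algebraMap ℤ ℚ) := (algebraMap ℤ ℚ).injective_int
  have hle := natDegree_le_of_dvd
    (minpoly.dvd ℚ x (p := g.map (algebraMap ℤ ℚ)) (by rw [aeval_map_algebraMap, h0]))
    ((Polynomial.map_ne_zero_iff hinj).2 hg)
  rw [natDegree_map_eq_of_injective hinj] at hle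
  omega

/-- **Liouville's inequality with the degree.** -/
theorem mahlerExp_le_degree {x : ℝ} (hx : IsAlgebraic ℤ x) (n : ℕ) :
    mahlerExp n x ≤ ((((minpoly ℚ x).natDegree - 1 : ℕ) : ℝ) : EReal) := by
  obtain ⟨m, a, f, h⟩ : ∃ (m : ℕ) (a : ℤ) (f : Fin (m + 1) → ℤ),
      IsMinRelation (Int.castRingHom ℝ) x a f := by
    obtain ⟨P, hP0, hP⟩ := hx
    refine exists_isMinRelation (Int.castRingHom ℝ) x
      ⟨P.natDegree + 1, fun l => P.coeff l, ⟨Fin.last _, by
        simpa using leadingCoeff_ne_zero.2 hP0⟩, ?_⟩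
    rw [aeval_eq_sum_range] at hP
    rw [Fin.sum_univ_eq_sum_range (fun l => (Int.castRingHom ℝ) (P.coeff l) * x ^ l)]
    simpa [zsmul_eq_mul] using hP
  refine (mahlerExp_le_of_isMinRelation h n).trans
    (EReal.coe_le_coe_iff.2 (Nat.cast_le.2 ?_))
  by_contra hlt
  obtain ⟨b, hb, hg⟩ := IsLocalization.integerNormalization_spec (nonZeroDivisors ℤ)
    (minpoly ℚ x)
  set g := IsLocalization.integerNormalization (nonZeroDivisors ℤ) (minpoly ℚ x) with hgdef
  have hxQ : IsIntegral ℚ x := ((IsFractionRing.isAlgebraic_iff ℤ ℚ ℝ).1 hx).isIntegral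
  have hinj : Function.Injective (algebraMap ℤ ℚ) := (algebraMap ℤ ℚ).injective_int
  have hdeg : g.natDegree ≤ m := by
    have h1 : (g.map (algebraMap ℤ ℚ)).natDegree ≤ (minpoly ℚ x).natDegree := by
      rw [hg]
      exact natDegree_smul_le _ _
    rw [natDegree_map_eq_of_injective hinj] at h1
    omega
  have hg0 : g ≠ 0 := by
    intro h0
    rw [h0, Polynomial.map_zero, eq_comm, smul_eq_zero] at hg
    exact hg.elim (nonZeroDivisors.ne_zero hb) (minpoly.ne_zero hxQ)
  have hval : aeval x g = 0 := by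
    rw [← aeval_map_algebraMap ℚ, hg, map_zsmul, minpoly.aeval, smul_zero]
  rw [aeval_eq_sum_range' (n := m + 1) (by omega)] at hval
  have hall := h.indep (fun l => g.coeff l) (by
    rw [Fin.sum_univ_eq_sum_range (fun l => (Int.castRingHom ℝ) (g.coeff l) * x ^ l)]
    simpa [zsmul_eq_mul] using hval) ⟨g.natDegree, by omega⟩
  exact leadingCoeff_ne_zero.2 hg0 (by simpa using hall)

/-- **Schmidt: `w n ≤ n` below the degree.** -/
theorem mahlerExp_le_self {x : ℝ} (hx : IsAlgebraic ℤ x) {n : ℕ}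
    (hn : n < (minpoly ℚ x).natDegree) : mahlerExp n x ≤ ((n : ℝ) : EReal) := by
  refine mahlerExp_le_iff.2 fun w hw => ?_
  by_contra hinf
  have hfin := Subspace.Summary.small_polynomial_values
    ((IsFractionRing.isAlgebraic_iff ℤ ℚ ℝ).1 hx) hn (ε := (w - n) / 2) (by linarith)
  obtain ⟨p, ⟨hp, hpS⟩, hp1⟩ := Transference.exists_norm_gt (Set.Infinite.sdiff hinf hfin) 1
  refine hpS ⟨ne_zero_of_mem hp, ?_⟩
  have hpos : 0 < ‖p‖ := zero_lt_one.trans hp1
  change |polyEval p x| * ‖p‖ ^ ((n : ℝ) + (w - n) / 2) < 1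
  refine lt_of_le_of_lt (mul_le_mul_of_nonneg_right hp.2 (Real.rpow_nonneg hpos.le _)) ?_
  rw [← Real.rpow_add hpos]
  exact Real.rpow_lt_one_of_one_lt_of_neg hp1 (by linarith)

/-- Approximations of larger degree are more numerous. -/
theorem koksmaExp_mono (x : ℝ) : Monotone fun n => koksmaExp n x := by
  intro n m hnm
  refine sSup_le ?_
  rintro _ ⟨w, hw, rfl⟩
  refine le_koksmaExp (hw.mono ?_)
  rintro α ⟨hne, f, h1, h2, h3, h4, h5⟩
  exact ⟨hne, f, h1, h2, h3.trans hnm, h4, h5⟩

/-- **`w* n ≥ 0` at a rational number.** -/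
theorem zero_le_koksmaExp_rat (q : ℚ) {n : ℕ} (hn : 1 ≤ n) :
    ((0 : ℝ) : EReal) ≤ koksmaExp n (q : ℝ) := by
  have hd : (0 : ℝ) < q.den := Nat.cast_pos.2 q.den_pos
  refine le_koksmaExp_of_bound (C := 4 * (|(q.num : ℝ)| + q.den + 1)) ?_
  let α : ℕ → ℝ := fun k => (q : ℝ) + 1 / ((q.den : ℝ) * ((k : ℝ) + 1))
  refine Set.infinite_of_injective_forall_mem (f := α) (fun j k h => by
    simpa [α, hd.ne'] using h) fun k => ?_
  have hk : (1 : ℝ) ≤ (k : ℝ) + 1 := by linarith [Nat.cast_nonneg (α := ℝ) k]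
  have hdist : |(q : ℝ) - α k| = 1 / ((q.den : ℝ) * ((k : ℝ) + 1)) := by
    rw [sub_add_cancel_left, abs_neg, abs_of_pos (by positivity)]
  refine ⟨fun h => ?_, ?_⟩
  · rw [h, sub_self, abs_zero] at hdist
    exact absurd hdist.symm (by positivity)
  set A : ℤ := (q.den : ℤ) * ((k : ℤ) + 1) with hA
  set B : ℤ := q.num * ((k : ℤ) + 1) + 1 with hB
  set P : ℤ[X] := C A * X - C B with hP
  have hA0 : A ≠ 0 := mul_ne_zero (by exact_mod_cast q.den_ne_zero) (by omega)
  have hP0 : P ≠ 0 := fun h => by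
    have h1 := congrArg (fun R => R.coeff 1) h
    simp only [hP, coeff_sub, coeff_C_mul, coeff_X_one, mul_one, coeff_C, one_ne_zero, if_false,
      sub_zero, coeff_zero] at h1
    exact hA0 h1
  have hPd : P.natDegree ≤ 1 :=
    (natDegree_sub_le _ _).trans (max_le ((natDegree_C_mul_le _ _).trans natDegree_X_le)
      (by simp))
  have hPα : aeval (α k) P = 0 := by
    rw [hP, map_sub, map_mul, aeval_C, aeval_C, aeval_X]
    simp only [hA, hB, algebraMap_int_eq, eq_intCast, α, Rat.cast_def]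
    push_cast
    field_simp
    ring
  have hPh : height P ≤ (|(q.num : ℝ)| + q.den + 1) * ((k : ℝ) + 1) := by
    obtain ⟨i, hi, he⟩ := Finset.exists_mem_eq_sup P.support (support_nonempty.2 hP0)
      fun i => (P.coeff i).natAbs
    rw [height, he, Nat.cast_natAbs, Int.cast_abs]
    have hi1 : i ≤ 1 := (le_natDegree_of_mem_supp i hi).trans hPd
    interval_cases i
    · simp only [hP, hB, coeff_sub, coeff_C_mul, coeff_X_zero, mul_zero, coeff_C_zero, zero_sub,
        Int.cast_neg, abs_neg, Int.cast_add, Int.cast_mul, Int.cast_natCast, Int.cast_one]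
      refine (abs_add_le _ _).trans ?_
      rw [abs_mul, abs_one, abs_of_nonneg (show (0 : ℝ) ≤ k + 1 by linarith)]
      nlinarith [abs_nonneg (q.num : ℝ)]
    · simp only [hP, hA, coeff_sub, coeff_C_mul, coeff_X_one, mul_one, coeff_C,
        one_ne_zero, if_false, sub_zero, Int.cast_mul, Int.cast_add, Int.cast_natCast,
        Int.cast_one]
      rw [abs_of_nonneg (by positivity)]
      nlinarith [abs_nonneg (q.num : ℝ)]
  obtain ⟨f, hf, hfd, hf0, hf1⟩ := exists_irreducible_factor hP0 hPα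
  have hfn : f.natDegree ≤ 1 := (natDegree_le_of_dvd hfd hP0).trans hPd
  have hfM : mahler f ≤ mahler P := by
    obtain ⟨g, hg⟩ := hfd
    rw [hg, mahler_mul]
    exact le_mul_of_one_le_right (zero_le_one.trans (one_le_mahler hf.ne_zero))
      (one_le_mahler fun h => hP0 (by rw [hg, h, mul_zero]))
  have hfh : height f ≤ 4 * (|(q.num : ℝ)| + q.den + 1) * ((k : ℝ) + 1) := by
    have h1 := height_le_mahler hf.ne_zero hfn
    have h2 := mahler_le_height hPd
    norm_num at h1 h2
    linarith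
  have hf1' := one_le_height hf.ne_zero
  refine ⟨f, hf, hf1, hfn.trans hn, hf0, ?_⟩
  rw [hdist, zero_add, Real.rpow_neg_one, ← div_eq_mul_inv,
    div_le_div_iff₀ (by positivity) (by linarith), one_mul]
  refine hfh.trans (mul_le_mul_of_nonneg_left ?_ (by positivity))
  exact le_mul_of_one_le_left (by linarith) (Nat.one_le_cast.2 q.den_pos)

/-- **`w* n ≥ min n (d - 1)`.** -/
theorem min_le_koksmaExp {x : ℝ} (hx : IsAlgebraic ℤ x) {n : ℕ} (hn : 1 ≤ n) :
    ((min n ((minpoly ℚ x).natDegree - 1) : ℕ) : ℝ) ≤ koksmaExp n x := by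
  set d := (minpoly ℚ x).natDegree with hd
  rcases Nat.eq_zero_or_pos (min n (d - 1)) with h0 | h0
  · have hxQ : IsIntegral ℚ x := ((IsFractionRing.isAlgebraic_iff ℤ ℚ ℝ).1 hx).isIntegral
    have hpos : 0 < d := minpoly.natDegree_pos hxQ
    obtain ⟨q, hq⟩ := minpoly.natDegree_eq_one_iff.1 (show d = 1 by omega)
    rw [eq_ratCast] at hq
    rw [h0, Nat.cast_zero, ← hq]
    exact zero_le_koksmaExp_rat q hn
  · have hlt : min n (d - 1) < d := by omega
    have hna := notAlgebraic_of_lt_degree (x := x) hlt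
    exact (koksmaExp_eq_of_mahlerExp_eq h0 hna (le_antisymm (mahlerExp_le_self hx hlt)
      (le_mahlerExp_of_forall_ne_zero
        (fun _ hp => polyEval_ne_zero_of_notAlgebraic hna hp) h0))).symm.le.trans
      (koksmaExp_mono x (min_le_left _ _))

/-- **The exponents of an algebraic number.** -/
theorem exponents_algebraic {x : ℝ} (hx : IsAlgebraic ℤ x) {n : ℕ} (hn : 1 ≤ n) :
    mahlerExp n x = ((min n ((minpoly ℚ x).natDegree - 1) : ℕ) : ℝ) ∧
      koksmaExp n x = ((min n ((minpoly ℚ x).natDegree - 1) : ℕ) : ℝ) := by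
  have hlo := min_le_koksmaExp hx hn
  have hle := koksmaExp_le_mahlerExp n x
  have hup : mahlerExp n x ≤ ((min n ((minpoly ℚ x).natDegree - 1) : ℕ) : ℝ) := by
    rcases le_total n ((minpoly ℚ x).natDegree - 1) with h | h
    · rw [min_eq_left h]
      exact mahlerExp_le_self hx (by omega)
    · rw [min_eq_right h]
      exact mahlerExp_le_degree hx n
  exact ⟨le_antisymm hup (hlo.trans hle), le_antisymm (hle.trans hup) hlo⟩

end FA.KoksmaClass
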