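import Fermat.Agent.WirsingApprox.Main

/-!
# Irreducible polynomials with small values, any exponent
-/

set_option autoImplicit false

noncomputable section

open Polynomial FA.WirsingApprox

namespace FA.KoksmaClass

variable {ξ : ℝ} {n : ℕ} {w : ℝ}

/-- Arbitrarily large polynomials in `S` with `|f ξ| ≪ M(f) ^ (-w)`. -/
def SmallR (ξ w : ℝ) (S : ℤ[X] → Prop) : Prop :=
  ∃ C : ℝ, 0 < C ∧ ∀ H : ℝ, ∃ f : ℤ[X], S f ∧ H ≤ mahler f ∧ |aeval ξ f| * mahler f ^ w ≤ C

theorem smallR_irreducible_aux (hξ : NotAlgebraic ξ n) (hw : 0 < w) :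
    ∀ d ≤ n, SmallR ξ w (fun f => f.IsPrimitive ∧ f.natDegree ≤ d) →
      SmallR ξ w fun f => Irreducible f ∧ f.IsPrimitive ∧ f.natDegree ≤ n := by
  intro d
  induction d using Nat.strong_induction_on with
  | _ d ih =>
    intro hdn hd
    by_contra hcon
    -- below degree `d` the good polynomials are bounded
    have hsub : ∀ C : ℝ, 0 < C → ∃ H : ℝ, 1 ≤ H ∧ ∀ f : ℤ[X], f.IsPrimitive →
        f.natDegree < d → H ≤ mahler f → C < |aeval ξ f| * mahler f ^ w := by
      intro C hC
      by_contra! hh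
      rcases Nat.eq_zero_or_pos d with rfl | hd0
      · obtain ⟨f, -, hlt, -, -⟩ := hh 1 le_rfl
        exact absurd hlt (Nat.not_lt_zero _)
      refine hcon (ih (d - 1) (by omega) (by omega) ⟨C, hC, fun H => ?_⟩)
      obtain ⟨f, hp, hlt, hH, hle⟩ := hh (max H 1) (le_max_right _ _)
      exact ⟨f, ⟨hp, by omega⟩, (le_max_left _ _).trans hH, hle⟩
    have hirr : ∀ C : ℝ, 0 < C → ∃ H : ℝ, 1 ≤ H ∧ ∀ f : ℤ[X], Irreducible f → f.IsPrimitive →
        f.natDegree ≤ n → H ≤ mahler f → C < |aeval ξ f| * mahler f ^ w := by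
      intro C hC
      by_contra! hh
      refine hcon ⟨C, hC, fun H => ?_⟩
      obtain ⟨f, hi, hp, hdeg, hH, hle⟩ := hh (max H 1) (le_max_right _ _)
      exact ⟨f, ⟨hi, hp, hdeg⟩, (le_max_left _ _).trans hH, hle⟩
    obtain ⟨C, hC, hsmall⟩ := hd
    obtain ⟨H1, hH1, hb1⟩ := hsub (max C 1) (lt_max_of_lt_right one_pos)
    obtain ⟨δ, hδ, hmin⟩ := exists_pos_bound hξ H1
    obtain ⟨H2, hH2, hb2⟩ := hsub (C / δ) (div_pos hC hδ)
    obtain ⟨H3, hH3, hb3⟩ := hirr C hC
    obtain ⟨f, ⟨hprim, hdeg⟩, hH, hle⟩ := hsmall (max (H1 * H2) H3 + 1)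
    have hM3 : H3 ≤ mahler f := by linarith [le_max_right (H1 * H2) H3]
    have hM12 : H1 * H2 < mahler f := by linarith [le_max_left (H1 * H2) H3]
    have hnotirr : ¬Irreducible f := fun hi =>
      absurd hle (hb3 f hi hprim (hdeg.trans hdn) hM3).not_ge
    have hnotunit : ¬IsUnit f := fun hu => by
      obtain ⟨r, hr, rfl⟩ := Polynomial.isUnit_iff.1 hu
      have h1 : mahler (Polynomial.C r) = 1 := by
        rw [mahler, Polynomial.map_C, mahlerMeasure_const]
        rcases Int.isUnit_iff.1 hr with rfl | rfl <;> simp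
      nlinarith
    obtain ⟨a, b, rfl, ha, hb⟩ : ∃ a b, f = a * b ∧ ¬IsUnit a ∧ ¬IsUnit b := by
      by_contra! h
      exact hnotirr ⟨hnotunit, fun a b e => (em (IsUnit a)).imp_right fun ha => h a b e ha⟩
    have hpa := isPrimitive_of_dvd hprim (dvd_mul_right a b)
    have hpb := isPrimitive_of_dvd hprim (dvd_mul_left b a)
    have hdega : 1 ≤ a.natDegree := by
      by_contra! h
      rw [eq_C_of_natDegree_eq_zero (by omega : a.natDegree = 0)] at ha hpa
      exact ha (isUnit_C.2 (hpa _ dvd_rfl))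
    have hdegb : 1 ≤ b.natDegree := by
      by_contra! h
      rw [eq_C_of_natDegree_eq_zero (by omega : b.natDegree = 0)] at hb hpb
      exact hb (isUnit_C.2 (hpb _ dvd_rfl))
    rw [natDegree_mul hpa.ne_zero hpb.ne_zero] at hdeg
    rw [mahler_mul] at hM12
    set x := |aeval ξ a| * mahler a ^ w
    set y := |aeval ξ b| * mahler b ^ w
    have hxy : x * y ≤ C := by
      refine le_of_eq_of_le ?_ hle
      rw [map_mul, abs_mul, mahler_mul,
        Real.mul_rpow (zero_le_one.trans (one_le_mahler hpa.ne_zero))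
          (zero_le_one.trans (one_le_mahler hpb.ne_zero))]
      ring
    have hMa := one_le_mahler hpa.ne_zero
    have hMb := one_le_mahler hpb.ne_zero
    have small : ∀ {a b : ℤ[X]}, a.IsPrimitive → b.IsPrimitive → a.natDegree ≤ n →
        b.natDegree < d → H2 ≤ mahler b → mahler a ≤ H1 →
        C < |aeval ξ a| * mahler a ^ w * (|aeval ξ b| * mahler b ^ w) :=
      fun {a b} pa pb da db hb' ha' => by
      have h1 := hb2 b pb db hb'
      have h2 : δ ≤ |aeval ξ a| * mahler a ^ w := (hmin a pa.ne_zero da ha').trans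
        (le_mul_of_one_le_right (abs_nonneg _) (Real.one_le_rpow (one_le_mahler pa.ne_zero) hw.le))
      calc C = δ * (C / δ) := by field_simp
        _ < δ * (|aeval ξ b| * mahler b ^ w) := mul_lt_mul_of_pos_left h1 hδ
        _ ≤ _ := mul_le_mul_of_nonneg_right h2 ((div_pos hC hδ).trans h1).le
    rcases le_or_gt (mahler a) H1 with ha1 | ha1
    · have hb' : H2 ≤ mahler b := by nlinarith
      linarith [small hpa hpb (by omega) (by omega) hb' ha1]
    rcases le_or_gt (mahler b) H1 with hb1' | hb1'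
    · have ha' : H2 ≤ mahler a := by nlinarith
      linarith [small hpb hpa (by omega) (by omega) ha' hb1', mul_comm x y]
    have g1 := hb1 a hpa (by omega) ha1.le
    have g2 := hb1 b hpb (by omega) hb1'.le
    have : C < x * y := by
      calc C ≤ max C 1 * 1 := by rw [mul_one]; exact le_max_left _ _
        _ < x * y := mul_lt_mul g1 ((le_max_right C 1).trans g2.le) one_pos
            ((zero_le_one.trans (le_max_right C 1)).trans g1.le)
    linarith

/-- **Irreducible polynomials with small values.** -/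
theorem smallR_irreducible (hξ : NotAlgebraic ξ n) (hw : 0 < w)
    (h : SmallR ξ w fun f => f.IsPrimitive ∧ f.natDegree ≤ n) :
    SmallR ξ w fun f => Irreducible f ∧ f.IsPrimitive ∧ f.natDegree ≤ n :=
  smallR_irreducible_aux hξ hw n le_rfl h

end FA.KoksmaClass
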