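import Fermat.Agent.WirsingApprox.Roots
import Mathlib.FieldTheory.Separable

/-!
# The nearest root of an irreducible polynomial

The discriminant as a product over the pairs of roots.
-/

set_option autoImplicit false

noncomputable section

open Polynomial FA.WirsingApprox

namespace FA.KoksmaClass

theorem prod_map_erase_mul {S : Multiset ℂ} {z : ℂ} (hz : z ∈ S) (g : ℂ → ℝ) :
    ((S.erase z).map g).prod * g z = (S.map g).prod := by
  classical
  conv_rhs => rw [← Multiset.cons_erase hz]
  rw [Multiset.map_cons, Multiset.prod_cons, mul_comm]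

/-- The discriminant is at least one. -/
theorem one_le_disc_prod {f : ℤ[X]} (hirr : Irreducible f) (hprim : f.IsPrimitive)
    (hd : 1 ≤ f.natDegree) :
    1 ≤ |(f.leadingCoeff : ℝ)| ^ (2 * (f.natDegree - 1)) *
      ((croots f).map fun z => (((croots f).erase z).map fun b => ‖z - b‖).prod).prod := by
  classical
  set F := f.map (Int.castRingHom ℂ) with hFdef
  have hinj := (Int.castRingHom ℂ).injective_int
  have hF : F.natDegree = f.natDegree := natDegree_map_eq_of_injective hinj f
  have hlc0 : f.leadingCoeff ≠ 0 := leadingCoeff_ne_zero.2 hprim.ne_zero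
  set d := f.natDegree with hd'
  have hdeg : 0 < f.degree := natDegree_pos_iff_degree_pos.1 (by omega)
  have hres := resultant_eq_prod_eval F F.derivative (d - 1)
    (by rw [← hF]; exact natDegree_derivative_le F) (IsAlgClosed.splits F)
  rw [hF, hFdef, derivative_map, resultant_map_map, hd', resultant_deriv hdeg,
    leadingCoeff_map_of_injective hinj, eq_intCast, eq_intCast, ← derivative_map,
    ← hFdef] at hres
  -- the derivative at a root
  have hev : ∀ z ∈ F.roots, F.derivative.eval z =
      (f.leadingCoeff : ℂ) * ((F.roots.erase z).map fun b => z - b).prod := fun z hz => by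
    conv_lhs => rw [(IsAlgClosed.splits F).eq_prod_roots, derivative_C_mul, eval_mul, eval_C]
    rw [eval_multiset_prod_X_sub_C_derivative hz, hFdef, leadingCoeff_map_of_injective hinj,
      eq_intCast]
  have hno : ∀ z ∈ F.roots, F.derivative.eval z ≠ 0 := fun z hz h0 => by
    have hQ := ((IsPrimitive.Int.irreducible_iff_irreducible_map_cast hprim).1 hirr).separable
    obtain ⟨a, b, hab⟩ := hQ
    have h := congrArg (eval₂ (algebraMap ℚ ℂ) z) hab
    have e : ∀ g : ℤ[X], (g.map (Int.castRingHom ℚ)).eval₂ (algebraMap ℚ ℂ) z =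
        (g.map (Int.castRingHom ℂ)).eval z := fun g => by
      rw [eval₂_map, RingHom.ext_int ((algebraMap ℚ ℂ).comp (Int.castRingHom ℚ))
        (Int.castRingHom ℂ), eval_map]
    rw [eval₂_add, eval₂_mul, eval₂_mul, derivative_map, e, e, ← derivative_map,
      (mem_roots'.1 hz).2, h0, mul_zero, mul_zero, add_zero, eval₂_one] at h
    exact zero_ne_one h
  have hdisc : f.discr ≠ 0 := fun h0 => by
    rw [h0, mul_zero, Int.cast_zero, eq_comm, mul_eq_zero, Multiset.prod_eq_zero_iff,
      Multiset.mem_map] at hres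
    rcases hres with h | ⟨z, hz, hz'⟩
    · exact pow_ne_zero _ (Int.cast_ne_zero.2 hlc0) h
    · exact hno z hz hz'
  have hn := congrArg (‖·‖) hres
  simp only [Int.cast_mul, Int.cast_pow, Int.cast_neg, Int.cast_one, norm_mul, norm_pow, norm_neg,
    norm_one, one_pow, one_mul, Complex.norm_intCast] at hn
  have hprod : ‖(F.roots.map F.derivative.eval).prod‖ = |(f.leadingCoeff : ℝ)| ^ d *
      ((croots f).map fun z => (((croots f).erase z).map fun b => ‖z - b‖).prod).prod := by
    rw [Multiset.map_congr rfl hev, ← normHom_apply, map_multiset_prod, Multiset.map_map]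
    simp only [Function.comp_def, normHom_apply, norm_mul, Complex.norm_intCast]
    rw [Multiset.prod_map_mul, Multiset.map_const', Multiset.prod_replicate,
      show F.roots = croots f from rfl, card_croots]
    congr 1
    refine congrArg Multiset.prod (Multiset.map_congr rfl fun z _ => ?_)
    rw [← normHom_apply, map_multiset_prod, Multiset.map_map]
    rfl
  rw [hprod] at hn
  have ha : 0 < |(f.leadingCoeff : ℝ)| := abs_pos.2 (Int.cast_ne_zero.2 hlc0)
  have hone : (1 : ℝ) ≤ |(f.discr : ℝ)| := by exact_mod_cast Int.one_le_abs hdisc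
  refine le_of_mul_le_mul_left ?_ ha
  rw [mul_one]
  calc |(f.leadingCoeff : ℝ)| ≤ |(f.leadingCoeff : ℝ)| * |(f.discr : ℝ)| :=
        le_mul_of_one_le_right ha.le hone
    _ = _ := by
        rw [hn, ← mul_assoc, ← mul_assoc, ← pow_succ', ← pow_add,
          show d - 1 + d = 2 * (d - 1) + 1 by omega]

/-- **A root near `ξ` in terms of the value.** -/
theorem exists_near_of_value (ξ : ℝ) (n : ℕ) : ∃ C : ℝ, 0 < C ∧ ∀ f : ℤ[X], Irreducible f →
    f.IsPrimitive → 1 ≤ f.natDegree → f.natDegree ≤ n → aeval ξ f ≠ 0 →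
    ∃ a ∈ dists ξ f, a * mahler f ^ 2 ≤ C * mahler f ^ n * |aeval ξ f| := by
  classical
  set K := 2 * (2 + |ξ|) with hK
  have hK1 : 1 ≤ K := by linarith [abs_nonneg ξ]
  refine ⟨K ^ (n * n) * (2 + |ξ|) ^ n, by positivity, fun f hirr hprim hd hdn hv => ?_⟩
  set d := f.natDegree with hd'
  obtain ⟨z1, hz1, hz1min⟩ := (croots f).toFinset.exists_min_image (dist1 ξ)
    (Multiset.toFinset_nonempty.2 fun h => by simp [hd', ← card_croots, h] at hd)
  rw [Multiset.mem_toFinset] at hz1
  set R := (croots f).erase z1 with hR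
  have hU := inUnit_dists ξ hv
  have hd01 : ∀ z ∈ croots f, 0 < dist1 ξ z ∧ dist1 ξ z ≤ 1 := fun z hz =>
    hU _ (Multiset.mem_map_of_mem _ hz)
  set a1 := dist1 ξ z1 with ha1
  refine ⟨a1, Multiset.mem_map_of_mem _ hz1, ?_⟩
  have hM := one_le_mahler hprim.ne_zero
  set P := ((croots f).map fun z => max 1 ‖z‖).prod with hP
  have hP0 : 0 < P := lt_of_lt_of_le one_pos (one_le_prod_max_one_norm_roots _)
  -- pairs
  have hpair : ∀ z b : ℂ, ‖z - b‖ ≤ K * max 1 ‖z‖ * max 1 ‖b‖ * max (dist1 ξ z) (dist1 ξ b) :=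
    fun z b => by
    have hz := (dist1_bounds ξ z).2
    have hb := (dist1_bounds ξ b).2
    have h := norm_sub_le_norm_sub_add_norm_sub z (ξ : ℂ) b
    rw [norm_sub_rev z (ξ : ℂ)] at h
    have m1 : (1 : ℝ) ≤ max 1 ‖z‖ := le_max_left _ _
    have m2 : (1 : ℝ) ≤ max 1 ‖b‖ := le_max_left _ _
    have hX : 0 ≤ (2 + |ξ|) * max 1 ‖z‖ := by positivity
    have hY : 0 ≤ (2 + |ξ|) * max 1 ‖b‖ := by positivity
    have g1 : (2 + |ξ|) * max 1 ‖z‖ * dist1 ξ z ≤
        (2 + |ξ|) * max 1 ‖z‖ * max 1 ‖b‖ * max (dist1 ξ z) (dist1 ξ b) :=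
      mul_le_mul (le_mul_of_one_le_right hX m2) (le_max_left _ _)
        (le_min zero_le_one (norm_nonneg _)) (mul_nonneg hX (by linarith))
    have g2 : (2 + |ξ|) * max 1 ‖b‖ * dist1 ξ b ≤
        (2 + |ξ|) * max 1 ‖z‖ * max 1 ‖b‖ * max (dist1 ξ z) (dist1 ξ b) := by
      rw [mul_right_comm (2 + |ξ|) (max 1 ‖z‖)]
      exact mul_le_mul (le_mul_of_one_le_right hY m1) (le_max_right _ _)
        (le_min zero_le_one (norm_nonneg _)) (mul_nonneg hY (by linarith))
    rw [hK]
    linarith
  have hnn : ∀ z b : ℂ, 0 ≤ max (dist1 ξ z) (dist1 ξ b) := fun z b =>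
    (le_min zero_le_one (norm_nonneg _)).trans (le_max_left _ _)
  set rowD : ℂ → ℝ := fun z => (((croots f).erase z).map fun b => max (dist1 ξ z) (dist1 ξ b)).prod
  have hrow : ∀ z ∈ croots f, (((croots f).erase z).map fun b => ‖z - b‖).prod * max 1 ‖z‖ ≤
      K ^ (d - 1) * max 1 ‖z‖ ^ (d - 1) * P * rowD z := fun z hz => by
    refine (mul_le_mul_of_nonneg_right (prod_map_le_prod_map _ (fun b _ => norm_nonneg _)
      fun b _ => hpair z b) (by positivity)).trans_eq ?_
    rw [Multiset.prod_map_mul, Multiset.prod_map_mul, Multiset.map_const',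
      Multiset.prod_replicate, Multiset.card_erase_of_mem hz, card_croots, mul_pow,
      ← hd', hP, ← prod_map_erase_mul hz fun z => max 1 ‖z‖, Nat.pred_eq_sub_one]
    ring
  have h1 : ((croots f).map fun z => (((croots f).erase z).map fun b => ‖z - b‖).prod).prod ≤
      K ^ ((d - 1) * d) * P ^ (2 * (d - 1)) * ((croots f).map rowD).prod := by
    refine le_of_mul_le_mul_right ?_ hP0
    calc ((croots f).map fun z => (((croots f).erase z).map fun b => ‖z - b‖).prod).prod * P
        = ((croots f).map fun z =>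
            (((croots f).erase z).map fun b => ‖z - b‖).prod * max 1 ‖z‖).prod := by
          rw [Multiset.prod_map_mul]
      _ ≤ ((croots f).map fun z => K ^ (d - 1) * max 1 ‖z‖ ^ (d - 1) * P * rowD z).prod :=
          prod_map_le_prod_map _ (fun z _ => mul_nonneg (Multiset.prod_nonneg (by simp))
            (by positivity)) hrow
      _ = K ^ ((d - 1) * d) * P ^ (2 * (d - 1)) * ((croots f).map rowD).prod * P := by
          rw [Multiset.prod_map_mul, Multiset.prod_map_mul, Multiset.prod_map_mul,
            Multiset.map_const', Multiset.map_const', Multiset.prod_replicate,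
            Multiset.prod_replicate, card_croots, Multiset.prod_map_pow, ← hP, ← pow_mul,
            two_mul, pow_add]
          obtain ⟨e, he⟩ := Nat.exists_eq_add_of_le hd
          rw [← hd', he, Nat.add_sub_cancel_left]
          ring
  -- the rows
  set rest := (R.map (dist1 ξ)).prod with hrest
  have hcons : croots f = z1 ::ₘ R := (Multiset.cons_erase hz1).symm
  have hRsub : ∀ z ∈ R, z ∈ croots f := fun z hz => Multiset.mem_of_mem_erase hz
  have hrow1 : rowD z1 = rest := by
    refine congrArg Multiset.prod (Multiset.map_congr rfl fun b hb => max_eq_right ?_)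
    exact hz1min b (Multiset.mem_toFinset.2 (Multiset.mem_of_mem_erase hb))
  have hrowR : ∀ z ∈ R, 0 ≤ rowD z ∧ rowD z ≤ dist1 ξ z := fun z hz => by
    refine ⟨Multiset.prod_nonneg (by simpa using fun b _ => hnn z b), ?_⟩
    have hmem : z1 ∈ (croots f).erase z := by
      rcases eq_or_ne z1 z with h | h
      · subst h
        exact hz
      · exact (Multiset.mem_erase_of_ne h).2 hz1
    simp only [rowD]
    rw [← Multiset.cons_erase hmem, Multiset.map_cons, Multiset.prod_cons,
      max_eq_left (hz1min z (Multiset.mem_toFinset.2 (hRsub z hz)))]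
    refine mul_le_of_le_one_right (hd01 z (hRsub z hz)).1.le ((prod_map_le_prod_map _
      (g := fun _ => (1 : ℝ)) (fun b _ => hnn z b) fun b hb => ?_).trans_eq (by simp))
    exact max_le (hd01 z (hRsub z hz)).2
      (hd01 b (Multiset.mem_of_mem_erase (Multiset.mem_of_mem_erase hb))).2
  have hrest0 : 0 ≤ rest :=
    Multiset.prod_nonneg (by simpa using fun z hz => (hd01 z (hRsub z hz)).1.le)
  have h2 : ((croots f).map rowD).prod ≤ rest ^ 2 := by
    rw [hcons, Multiset.map_cons, Multiset.prod_cons, hrow1, sq]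
    exact mul_le_mul_of_nonneg_left
      (prod_map_le_prod_map _ (fun z hz => (hrowR z hz).1) fun z hz => (hrowR z hz).2) hrest0
  have h3 : (1 : ℝ) ≤ (K ^ (n * n) * mahler f ^ (d - 1) * rest) ^ 2 := by
    refine (one_le_disc_prod hirr hprim hd).trans ?_
    refine (mul_le_mul_of_nonneg_left (h1.trans (mul_le_mul_of_nonneg_left h2 (by positivity)))
      (by positivity)).trans ?_
    rw [mahler_eq, ← hP]
    have hKp : K ^ ((d - 1) * d) ≤ (K ^ (n * n)) ^ 2 := by
      rw [← pow_mul]
      refine pow_le_pow_right₀ hK1 ?_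
      have := Nat.mul_le_mul (show d - 1 ≤ n by omega) hdn
      omega
    calc |(f.leadingCoeff : ℝ)| ^ (2 * (d - 1)) *
          (K ^ ((d - 1) * d) * P ^ (2 * (d - 1)) * rest ^ 2)
        ≤ |(f.leadingCoeff : ℝ)| ^ (2 * (d - 1)) *
          ((K ^ (n * n)) ^ 2 * P ^ (2 * (d - 1)) * rest ^ 2) := by gcongr
      _ = _ := by ring
  have h4 : (1 : ℝ) ≤ K ^ (n * n) * mahler f ^ (d - 1) * rest := by
    have : 0 ≤ K ^ (n * n) * mahler f ^ (d - 1) * rest := by positivity
    nlinarith
  have hval : mahler f * (a1 * rest) ≤ (2 + |ξ|) ^ n * |aeval ξ f| := by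
    have h := mahler_mul_prod_le ξ f
    rw [dists, hcons, Multiset.map_cons, Multiset.prod_cons] at h
    exact h.trans (mul_le_mul_of_nonneg_right
      (pow_le_pow_right₀ (by linarith [abs_nonneg ξ]) hdn) (abs_nonneg _))
  have ha10 : 0 ≤ a1 := le_min zero_le_one (norm_nonneg _)
  calc a1 * mahler f ^ 2 ≤ a1 * mahler f ^ 2 * (K ^ (n * n) * mahler f ^ (d - 1) * rest) :=
        le_mul_of_one_le_right (by positivity) h4
    _ = K ^ (n * n) * (mahler f * (a1 * rest)) * mahler f ^ d := by
        obtain ⟨e, he⟩ := Nat.exists_eq_add_of_le hd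
        rw [he, Nat.add_sub_cancel_left]
        ring
    _ ≤ K ^ (n * n) * ((2 + |ξ|) ^ n * |aeval ξ f|) * mahler f ^ n := by
        gcongr
    _ = _ := by ring

end FA.KoksmaClass
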