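import Fermat.Agent.KoksmaClass.Descent
import Fermat.Agent.KoksmaClass.Discriminant
import Fermat.Agent.MahlerClass.Classes
import Fermat.Agent.Root.SummaryWirsingApprox

/-!
# Koksma's exponents against Mahler's

`w n - n + 1 ≤ w* n ≤ w n`, and `(n + 1) / 2 ≤ w* n` for transcendental numbers.
-/

set_option autoImplicit false

noncomputable section

open Polynomial Filter FA.WirsingApprox FA.MahlerClass

namespace FA.KoksmaClass

/-- The largest absolute coefficient. -/
def height (f : ℤ[X]) : ℝ := ((f.support.sup fun i => (f.coeff i).natAbs : ℕ) : ℝ)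

/-- The real algebraic `α ≠ x` of degree at most `n` with `|x - α| ≤ H ^ (-w - 1)`. -/
def approxSet (n : ℕ) (x w : ℝ) : Set ℝ :=
  {α | α ≠ x ∧ ∃ f : ℤ[X], Irreducible f ∧ 1 ≤ f.natDegree ∧ f.natDegree ≤ n ∧ aeval α f = 0 ∧
    |x - α| ≤ height f ^ (-(w + 1))}

/-- Koksma's exponent `w* n`. -/
def koksmaExp (n : ℕ) (x : ℝ) : EReal :=
  sSup ((fun w : ℝ => (w : EReal)) '' {w | (approxSet n x w).Infinite})

theorem le_koksmaExp {n : ℕ} {x w : ℝ} (h : (approxSet n x w).Infinite) :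
    (w : EReal) ≤ koksmaExp n x :=
  le_sSup ⟨w, h, rfl⟩

theorem abs_coeff_le_height (f : ℤ[X]) (i : ℕ) : |(f.coeff i : ℝ)| ≤ height f := by
  rw [← Int.cast_abs, ← Nat.cast_natAbs, height, Nat.cast_le]
  rcases eq_or_ne (f.coeff i) 0 with h | h
  · simp [h]
  · exact Finset.le_sup (f := fun i => (f.coeff i).natAbs) (mem_support_iff.2 h)

theorem one_le_height {f : ℤ[X]} (hf : f ≠ 0) : 1 ≤ height f :=
  le_trans (by exact_mod_cast Int.one_le_abs (leadingCoeff_ne_zero.2 hf))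
    (abs_coeff_le_height f f.natDegree)

theorem height_le_mahler {f : ℤ[X]} {n : ℕ} (hf : f ≠ 0) (hdn : f.natDegree ≤ n) :
    height f ≤ 2 ^ n * mahler f := by
  obtain ⟨i, -, he⟩ := Finset.exists_mem_eq_sup f.support (support_nonempty.2 hf)
    fun i => (f.coeff i).natAbs
  calc height f = ((f.coeff i).natAbs : ℝ) := congrArg Nat.cast he
    _ = ‖(f.map (Int.castRingHom ℂ)).coeff i‖ := by
        rw [coeff_map, eq_intCast, Complex.norm_intCast, Nat.cast_natAbs, Int.cast_abs]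
    _ ≤ _ := norm_coeff_le_choose_mul_mahlerMeasure i _
    _ ≤ 2 ^ n * mahler f := by
        refine mul_le_mul_of_nonneg_right ?_ (zero_le_one.trans (one_le_mahler hf))
        rw [natDegree_map_eq_of_injective (Int.castRingHom ℂ).injective_int]
        calc ((f.natDegree.choose i : ℕ) : ℝ) ≤ ((2 ^ f.natDegree : ℕ) : ℝ) :=
              Nat.cast_le.2 (Nat.choose_le_two_pow _ _)
          _ ≤ 2 ^ n := by push_cast; exact pow_le_pow_right₀ one_le_two hdn

theorem mahler_le_height {f : ℤ[X]} {n : ℕ} (hdn : f.natDegree ≤ n) :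
    mahler f ≤ (n + 1) * height f := by
  refine (mahlerMeasure_le_sum_norm_coeff _).trans ?_
  rw [sum_over_range' _ (fun _ => norm_zero) (n + 1)
    (Nat.lt_succ_of_le (natDegree_map_le.trans hdn))]
  refine (Finset.sum_le_card_nsmul _ _ (height f) fun i _ => ?_).trans_eq (by simp)
  rw [coeff_map, eq_intCast, Complex.norm_intCast]
  exact abs_coeff_le_height f i

theorem finite_height_le (n : ℕ) (B : ℝ) :
    {f : ℤ[X] | f.natDegree ≤ n ∧ height f ≤ B}.Finite :=
  (finite_mahlerMeasure_le n (((n : ℝ) + 1) * B).toNNReal).subset fun f ⟨h1, h2⟩ =>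
    ⟨h1, ((mahler_le_height h1).trans (by gcongr)).trans (Real.le_coe_toNNReal _)⟩

/-- The roots of finitely many nonzero polynomials are finitely many. -/
theorem finite_roots {S : Set ℤ[X]} (hS : S.Finite) :
    {α : ℝ | ∃ f ∈ S, f ≠ 0 ∧ aeval α f = 0}.Finite := by
  refine (hS.biUnion fun f _ => ((f.map (Int.castRingHom ℝ)).roots.toFinset : Finset ℝ).finite_toSet
    ).subset ?_
  rintro α ⟨f, hf, h0, hα⟩
  refine Set.mem_biUnion hf ?_
  rw [Finset.mem_coe, Multiset.mem_toFinset,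
    mem_roots ((Polynomial.map_ne_zero_iff (Int.castRingHom ℝ).injective_int).2 h0), IsRoot,
    eval_map, ← algebraMap_int_eq, ← aeval_def]
  exact hα

/-- Constants do not matter to the exponents below. -/
theorem infinite_approxSet {n : ℕ} {x w v C : ℝ} (hv : v < w)
    (h : {α : ℝ | α ≠ x ∧ ∃ f : ℤ[X], Irreducible f ∧ 1 ≤ f.natDegree ∧ f.natDegree ≤ n ∧
      aeval α f = 0 ∧ |x - α| ≤ C * height f ^ (-(w + 1))}.Infinite) :
    (approxSet n x v).Infinite := by
  obtain ⟨B, hB⟩ := eventually_atTop.1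
    ((((tendsto_rpow_neg_atTop (sub_pos.2 hv)).const_mul C).eventually_le_const
      (show C * 0 < 1 by simp)).and (eventually_gt_atTop (0 : ℝ)))
  refine (h.sdiff (finite_roots (finite_height_le n B))).mono ?_
  rintro α ⟨⟨hne, f, hf, h1, h2, h3, h4⟩, hbig⟩
  have hlarge : B < height f := not_le.1 fun hle => hbig ⟨f, ⟨h2, hle⟩, hf.ne_zero, h3⟩
  obtain ⟨hsmall, hpos⟩ := hB _ hlarge.le
  refine ⟨hne, f, hf, h1, h2, h3, h4.trans ?_⟩
  calc C * height f ^ (-(w + 1)) = C * height f ^ (-(w - v)) * height f ^ (-(v + 1)) := by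
        rw [mul_assoc, ← Real.rpow_add hpos, show -(w - v) + -(v + 1) = -(w + 1) by ring]
    _ ≤ height f ^ (-(v + 1)) :=
        mul_le_of_le_one_left (Real.rpow_nonneg hpos.le _) hsmall

theorem le_koksmaExp_of_bound {n : ℕ} {x w C : ℝ}
    (h : {α : ℝ | α ≠ x ∧ ∃ f : ℤ[X], Irreducible f ∧ 1 ≤ f.natDegree ∧ f.natDegree ≤ n ∧
      aeval α f = 0 ∧ |x - α| ≤ C * height f ^ (-(w + 1))}.Infinite) :
    (w : EReal) ≤ koksmaExp n x := by
  refine EReal.ge_of_forall_gt_iff_ge.1 fun v hv => ?_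
  exact le_koksmaExp (infinite_approxSet (EReal.coe_lt_coe_iff.1 hv) h)

/-- The polynomial of a coefficient vector. -/
def polyOf {n : ℕ} (p : Fin (n + 1) → ℤ) : ℤ[X] := ∑ j, C (p j) * X ^ (j : ℕ)

theorem natDegree_polyOf {n : ℕ} (p : Fin (n + 1) → ℤ) : (polyOf p).natDegree ≤ n :=
  natDegree_sum_le_of_forall_le _ _ fun j _ =>
    (natDegree_C_mul_X_pow_le _ _).trans (Nat.lt_succ_iff.1 j.2)

theorem coeff_polyOf {n : ℕ} (p : Fin (n + 1) → ℤ) (i : Fin (n + 1)) :
    (polyOf p).coeff i = p i := by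
  rw [polyOf, finsetSum_coeff, Finset.sum_eq_single i]
  · rw [coeff_C_mul_X_pow, if_pos rfl]
  · intro j _ hj
    rw [coeff_C_mul_X_pow, if_neg (by omega)]
  · simp

theorem height_polyOf {n : ℕ} (p : Fin (n + 1) → ℤ) : height (polyOf p) = ‖p‖ := by
  apply le_antisymm
  · rcases eq_or_ne (polyOf p) 0 with h | h
    · simp [height, h]
    obtain ⟨i, hi, he⟩ := Finset.exists_mem_eq_sup (polyOf p).support (support_nonempty.2 h)
      fun i => ((polyOf p).coeff i).natAbs
    have hin : i < n + 1 :=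
      Nat.lt_succ_of_le ((le_natDegree_of_mem_supp i hi).trans (natDegree_polyOf p))
    rw [height, he, Nat.cast_natAbs, Int.cast_abs, ← Int.norm_eq_abs,
      show (polyOf p).coeff i = p ⟨i, hin⟩ from coeff_polyOf p ⟨i, hin⟩]
    exact norm_le_pi_norm p ⟨i, hin⟩
  · refine (pi_norm_le_iff_of_nonneg (Nat.cast_nonneg _)).2 fun i => ?_
    rw [Int.norm_eq_abs, ← coeff_polyOf p i]
    exact abs_coeff_le_height _ _

theorem polyOf_coeff {n : ℕ} {f : ℤ[X]} (hf : f.natDegree ≤ n) :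
    polyOf (fun i : Fin (n + 1) => f.coeff i) = f := by
  rw [polyOf, Fin.sum_univ_eq_sum_range (fun i => Polynomial.C (f.coeff i) * X ^ i)]
  exact (f.as_sum_range_C_mul_X_pow' (Nat.lt_succ_of_le hf)).symm

theorem neg_one_le_mahlerExp (n : ℕ) (x : ℝ) : ((-1 : ℝ) : EReal) ≤ mahlerExp n x := by
  refine le_mahlerExp (Set.infinite_of_injective_forall_mem
    (f := fun k : ℕ => (Pi.single 0 ((k : ℤ) + 1) : Fin (n + 1) → ℤ)) (fun a b h => ?_) fun k => ?_)
  · simpa using congrFun h 0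
  · have e : polyEval (Pi.single 0 ((k : ℤ) + 1) : Fin (n + 1) → ℤ) x = (k : ℝ) + 1 := by
      rw [polyEval, Finset.sum_eq_single 0]
      · simp
      · intro j _ hj
        simp [hj]
      · simp
    refine ⟨by rw [e]; positivity, ?_⟩
    rw [e, neg_neg, Real.rpow_one, abs_of_pos (by positivity)]
    refine le_trans (le_of_eq ?_) (norm_le_pi_norm _ 0)
    rw [Pi.single_eq_same, Int.norm_eq_abs, Int.cast_add, Int.cast_natCast, Int.cast_one,
      abs_of_pos (by positivity)]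

/-- An irreducible integer polynomial with a root in common with another divides it. -/
theorem dvd_of_common_root {f g : ℤ[X]} (hf : Irreducible f) (hd : 1 ≤ f.natDegree) {x : ℝ}
    (hfx : aeval x f = 0) (hgx : aeval x g = 0) : f ∣ g := by
  have hprim := hf.isPrimitive (by omega)
  rcases dvd_or_isCoprime _ (g.map (Int.castRingHom ℚ))
    ((IsPrimitive.Int.irreducible_iff_irreducible_map_cast hprim).1 hf) with h | ⟨a, b, hab⟩
  · exact (IsPrimitive.Int.dvd_iff_map_cast_dvd_map_cast f g hprim).2 h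
  · have h := congrArg (eval₂ (algebraMap ℚ ℝ) x) hab
    have e : ∀ g : ℤ[X], (g.map (Int.castRingHom ℚ)).eval₂ (algebraMap ℚ ℝ) x = aeval x g :=
      fun g => by
      rw [eval₂_map, RingHom.ext_int ((algebraMap ℚ ℝ).comp (Int.castRingHom ℚ))
        (Int.castRingHom ℝ), aeval_def, algebraMap_int_eq]
    rw [eval₂_add, eval₂_mul, eval₂_mul, e, e, hfx, hgx, mul_zero, mul_zero, add_zero,
      eval₂_one] at h
    exact absurd h zero_ne_one

/-- **`w* n ≤ w n`.** -/
theorem koksmaExp_le_mahlerExp (n : ℕ) (x : ℝ) : koksmaExp n x ≤ mahlerExp n x := by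
  refine sSup_le ?_
  rintro _ ⟨w, hw, rfl⟩
  refine EReal.ge_of_forall_gt_iff_ge.1 fun v hv => ?_
  rw [EReal.coe_lt_coe_iff] at hv
  rcases le_or_gt w (-1) with hw1 | hw1
  · exact le_trans (EReal.coe_le_coe_iff.2 (by linarith)) (neg_one_le_mahlerExp n x)
  refine le_mahlerExp fun hfin => hw ?_
  -- the polynomials of the approximations are small at `x`
  set D := ((n : ℝ) + 1) ^ 2 * (|x| + 2) ^ n
  obtain ⟨B, hB⟩ := eventually_atTop.1
    ((((tendsto_rpow_neg_atTop (sub_pos.2 hv)).const_mul D).eventually_le_const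
      (show D * 0 < 1 by simp)).and (eventually_gt_atTop (0 : ℝ)))
  obtain ⟨T, hT, hTsub⟩ : ∃ T : Set ℝ, T.Finite ∧ ∀ α : ℝ, ∀ f : ℤ[X], Irreducible f →
      1 ≤ f.natDegree → aeval α f = 0 → aeval x f = 0 → α ∈ T := by
    by_cases hx : ∃ g : ℤ[X], Irreducible g ∧ aeval x g = 0
    · obtain ⟨g, hg, hgx⟩ := hx
      refine ⟨_, finite_roots (Set.finite_singleton g), fun α f hf hd hα hfx => ?_⟩
      obtain ⟨q, hq⟩ := dvd_of_common_root hf hd hfx hgx
      exact ⟨g, rfl, hg.ne_zero, by rw [hq, map_mul, hα, zero_mul]⟩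
    · exact ⟨∅, Set.finite_empty, fun α f hf _ _ hfx => absurd ⟨f, hf, hfx⟩ hx⟩
  refine (((finite_roots (finite_height_le n B)).union hT).union
    (finite_roots (hfin.image polyOf))).subset ?_
  rintro α ⟨hne, f, hf, h1, h2, h3, h4⟩
  by_cases hfx : aeval x f = 0
  · exact Or.inl (Or.inr (hTsub α f hf h1 h3 hfx))
  rcases le_or_gt (height f) B with hH | hH
  · exact Or.inl (Or.inl ⟨f, ⟨h2, hH⟩, hf.ne_zero, h3⟩)
  refine Or.inr ⟨f, ⟨fun i : Fin (n + 1) => f.coeff i, ?_, polyOf_coeff h2⟩, hf.ne_zero, h3⟩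
  have hev : polyEval (fun i : Fin (n + 1) => f.coeff i) x = aeval x f := by
    rw [polyEval_eq_aeval]
    exact congrArg (aeval x) (polyOf_coeff h2)
  have hnorm : ‖fun i : Fin (n + 1) => f.coeff i‖ = height f := by
    rw [← height_polyOf, polyOf_coeff h2]
  refine ⟨by rwa [hev], ?_⟩
  rw [hev, hnorm]
  obtain ⟨hsmall, hpos⟩ := hB _ hH.le
  have hH1 := one_le_height hf.ne_zero
  have hclose : |x - α| ≤ 1 :=
    h4.trans (Real.rpow_le_one_of_one_le_of_nonpos hH1 (by linarith))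
  have hval : |aeval x f| ≤ D * (height f * |x - α|) := by
    have e : aeval x f = ∑ i ∈ Finset.range (n + 1), (f.coeff i : ℝ) * (x ^ i - α ^ i) := by
      have hx := aeval_eq_sum_range' (Nat.lt_succ_of_le h2) x
      have hα := aeval_eq_sum_range' (Nat.lt_succ_of_le h2) α
      rw [h3] at hα
      simp only [zsmul_eq_mul] at hx hα
      rw [hx]
      conv_lhs => rw [← sub_zero (∑ _ ∈ _, _), hα, ← Finset.sum_sub_distrib]
      simp only [mul_sub]
    rw [e]
    refine (Finset.abs_sum_le_sum_abs _ _).trans ((Finset.sum_le_card_nsmul _ _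
      (((n : ℝ) + 1) * (|x| + 2) ^ n * (height f * |x - α|)) fun i hi => ?_).trans_eq ?_)
    · rw [Finset.mem_range] at hi
      rw [abs_mul]
      have hα : |α| ≤ |x| + 2 := by
        have h := abs_sub_abs_le_abs_sub α x
        rw [abs_sub_comm α x] at h
        linarith
      have hpow : |x ^ i - α ^ i| ≤ ((n : ℝ) + 1) * (|x| + 2) ^ n * |x - α| := by
        refine (abs_pow_sub_pow_le x α i).trans ?_
        rw [mul_comm _ |x - α|, mul_assoc]
        refine mul_le_mul_of_nonneg_left (mul_le_mul (by exact_mod_cast hi.le) ?_ (by positivity)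
          (by positivity)) (abs_nonneg _)
        refine (pow_le_pow_left₀ (by positivity) (max_le (by linarith) hα) _).trans
          (pow_le_pow_right₀ (by linarith [abs_nonneg x]) (by omega))
      calc |(f.coeff i : ℝ)| * |x ^ i - α ^ i|
          ≤ height f * (((n : ℝ) + 1) * (|x| + 2) ^ n * |x - α|) :=
            mul_le_mul (abs_coeff_le_height f i) hpow (abs_nonneg _) (by linarith)
        _ = _ := by ring
    · rw [Finset.card_range, nsmul_eq_mul]
      push_cast
      ring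
  refine hval.trans ?_
  have hD : 0 ≤ D := by positivity
  calc D * (height f * |x - α|) ≤ D * (height f * height f ^ (-(w + 1))) := by gcongr
    _ = D * height f ^ (-(w - v)) * height f ^ (-v) := by
        rw [mul_assoc D, ← Real.rpow_add hpos, show -(w - v) + -v = 1 + -(w + 1) by ring,
          Real.rpow_add hpos, Real.rpow_one]
    _ ≤ height f ^ (-v) := mul_le_of_le_one_left (Real.rpow_nonneg hpos.le _) hsmall

/-- **Wirsing: `(n + 1) / 2 ≤ w* n`.** -/
theorem wirsing_le_koksmaExp {x : ℝ} (hx : Transcendental ℤ x) {n : ℕ} (hn : 1 ≤ n) :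
    ((((n : ℝ) + 1) / 2 : ℝ) : EReal) ≤ koksmaExp n x := by
  obtain ⟨C, hC, h⟩ := WirsingApprox.Summary.wirsing_approximation_transcendental hx hn
  refine le_koksmaExp_of_bound (C := C) (h.mono ?_)
  rintro α ⟨f, hf, h1, h2, h3, h4⟩
  refine ⟨fun e => hx ⟨f, hf.ne_zero, e ▸ h3⟩, f, hf, h1, h2, h3, h4.trans_eq ?_⟩
  rw [show -(((n : ℝ) + 1) / 2 + 1) = -(((n : ℝ) + 3) / 2) by ring]
  rfl

theorem smallR_primitive {x w : ℝ} {n : ℕ} (hx : NotAlgebraic x n) (hw : 0 < w)
    (h : (smallSet n x w).Infinite) :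
    SmallR x w fun f => f.IsPrimitive ∧ f.natDegree ≤ n := by
  refine ⟨((n : ℝ) + 1) ^ w, by positivity, fun H => ?_⟩
  obtain ⟨δ, hδ, hmin⟩ := exists_pos_bound hx H
  obtain ⟨R, hR⟩ := eventually_atTop.1 ((tendsto_rpow_neg_atTop hw).eventually_lt_const hδ)
  obtain ⟨p, hp, hpR⟩ := Transference.exists_norm_gt h R
  have hev : aeval x (polyOf p) = polyEval p x := (polyEval_eq_aeval p x).symm
  set f := polyOf p with hfdef
  have hf : f ≠ 0 := fun e => hp.1 (by rw [← hev, e, map_zero])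
  have hdeg : f.natDegree ≤ n := natDegree_polyOf p
  set g := f.primPart with hgdef
  have hg : g ≠ 0 := f.isPrimitive_primPart.ne_zero
  have hgdeg : g.natDegree ≤ n := (natDegree_primPart f).le.trans hdeg
  have hc0 : f.content ≠ 0 := mt Polynomial.content_eq_zero_iff.1 hf
  have hgM : mahler g ≤ mahler f := by
    conv_rhs => rw [f.eq_C_content_mul_primPart, mahler_mul]
    exact le_mul_of_one_le_left (zero_le_one.trans (one_le_mahler hg))
      (one_le_mahler (C_ne_zero.2 hc0))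
  have hgv : |aeval x g| ≤ |aeval x f| := by
    conv_rhs => rw [f.eq_C_content_mul_primPart, map_mul, aeval_C, abs_mul]
    refine le_mul_of_one_le_left (abs_nonneg _) ?_
    rw [algebraMap_int_eq, eq_intCast]
    exact_mod_cast Int.one_le_abs hc0
  have hp1 : 1 ≤ ‖p‖ := Transference.one_le_norm_intVector (ne_zero_of_mem hp)
  have hfsmall : |aeval x f| ≤ ‖p‖ ^ (-w) := by rw [hev]; exact hp.2
  refine ⟨g, ⟨f.isPrimitive_primPart, hgdeg⟩, ?_, ?_⟩
  · by_contra! hlt
    linarith [hmin g hg hgdeg hlt.le, hR _ hpR.le]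
  · have hM : mahler f ≤ ((n : ℝ) + 1) * ‖p‖ :=
      (mahler_le_height hdeg).trans_eq (by rw [hfdef, height_polyOf])
    calc |aeval x g| * mahler g ^ w ≤ ‖p‖ ^ (-w) * (((n : ℝ) + 1) * ‖p‖) ^ w := by
          refine mul_le_mul (hgv.trans hfsmall) (Real.rpow_le_rpow
            (zero_le_one.trans (one_le_mahler hg)) (hgM.trans hM) hw.le)
            (Real.rpow_nonneg (zero_le_one.trans (one_le_mahler hg)) _) (by positivity)
      _ = ((n : ℝ) + 1) ^ w := by
          rw [Real.mul_rpow (by positivity) (norm_nonneg _), mul_left_comm,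
            ← Real.rpow_add (by linarith), neg_add_cancel, Real.rpow_zero, mul_one]

/-- **`w n ≤ w* n + n - 1`.** -/
theorem mahlerExp_le_koksmaExp_add {x : ℝ} (hx : Transcendental ℤ x) {n : ℕ} (hn : 1 ≤ n) :
    mahlerExp n x ≤ koksmaExp n x + (((n : ℝ) - 1 : ℝ) : EReal) := by
  have hna : NotAlgebraic x n := fun f hf _ h => hx ⟨f, hf, h⟩
  refine sSup_le ?_
  rintro _ ⟨w, hw, rfl⟩
  suffices h : ((w - ((n : ℝ) - 1) : ℝ) : EReal) ≤ koksmaExp n x by
    have h' := add_le_add_left h (((n : ℝ) - 1 : ℝ) : EReal)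
    rwa [← EReal.coe_add, sub_add_cancel] at h'
  have hn1 : (1 : ℝ) ≤ n := by exact_mod_cast hn
  rcases le_or_gt w n with hwn | hwn
  · exact le_trans (EReal.coe_le_coe_iff.2 (by linarith)) (wirsing_le_koksmaExp hx hn)
  have hw0 : 0 < w := by linarith
  obtain ⟨C, hC, hgood⟩ := smallR_irreducible hna hw0 (smallR_primitive hna hw0 hw)
  obtain ⟨C1, H1, hC1, hroot⟩ := exists_real_root_near hn hna hC
  obtain ⟨C2, hC2, hdisc⟩ := exists_near_of_value x n
  set e := w - (n : ℝ) + 2 with he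
  have he0 : 0 < e := by linarith
  refine le_koksmaExp_of_bound (C := C2 * C * (2 ^ n : ℝ) ^ e) fun hfin => ?_
  obtain ⟨ε, hε, hsep⟩ : ∃ ε > 0, ∀ α ∈ hfin.toFinset, ε ≤ |x - α| := by
    rcases hfin.toFinset.eq_empty_or_nonempty with h0 | h0
    · exact ⟨1, one_pos, fun α hα => absurd hα (by rw [h0]; exact Finset.notMem_empty α)⟩
    · obtain ⟨α, hα, hmin⟩ := hfin.toFinset.exists_min_image (fun α => |x - α|) h0
      exact ⟨|x - α|, abs_pos.2 (sub_ne_zero.2 (hfin.mem_toFinset.1 hα).1.symm), hmin⟩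
  obtain ⟨P, ⟨hPirr, hPprim, hPdeg⟩, hPH, hPle⟩ := hgood (max H1 0 + C1 / ε + 1)
  have hM1 := one_le_mahler hPprim.ne_zero
  have hM0 : 0 < mahler P := by linarith
  have hC1ε : 0 < C1 / ε := div_pos hC1 hε
  have hPn : |aeval x P| * mahler P ^ n ≤ C := by
    refine le_trans (mul_le_mul_of_nonneg_left ?_ (abs_nonneg _)) hPle
    rw [← Real.rpow_natCast]
    exact Real.rpow_le_rpow_of_exponent_le hM1 hwn.le
  obtain ⟨α, f, hf, h1, h2, h3, hfM, -, hH, hmin⟩ :=
    hroot P hPirr hPprim hPdeg (by linarith [le_max_left H1 0]) hPn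
  have hPd : 1 ≤ P.natDegree := by
    by_contra! hd
    rw [eq_C_of_natDegree_eq_zero (by omega : P.natDegree = 0)] at hPprim hPirr
    exact hPirr.not_isUnit (isUnit_C.2 (hPprim _ dvd_rfl))
  obtain ⟨a, ha, hbound⟩ := hdisc P hPirr hPprim hPd hPdeg (hna P hPprim.ne_zero hPdeg)
  have hlt : |x - α| < ε := by
    have hlt : C1 < mahler P * ε := by
      rw [← div_lt_iff₀ hε]
      linarith [le_max_right H1 0]
    nlinarith [abs_nonneg (x - α)]
  refine (hsep α (hfin.mem_toFinset.2 ⟨fun e => hna f hf.ne_zero h2 (e ▸ h3), f, hf, h1, h2, h3,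
    ?_⟩)).not_gt hlt
  have hda : |x - α| ≤ C2 * C * mahler P ^ (-e) := by
    have hPle' : |aeval x P| ≤ C * mahler P ^ (-w) := by
      rw [Real.rpow_neg hM0.le, ← div_eq_mul_inv, le_div_iff₀ (Real.rpow_pos_of_pos hM0 _)]
      exact hPle
    have h5 : |x - α| * mahler P ^ 2 ≤ C2 * mahler P ^ n * (C * mahler P ^ (-w)) :=
      ((mul_le_mul_of_nonneg_right (hmin a ha) (sq_nonneg _)).trans hbound).trans
        (mul_le_mul_of_nonneg_left hPle' (by positivity))
    rw [← le_div_iff₀ (pow_pos hM0 2)] at h5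
    refine h5.trans_eq ?_
    rw [show -e = ((n : ℝ) + -w) - ((2 : ℕ) : ℝ) by rw [he]; push_cast; ring,
      Real.rpow_sub hM0, Real.rpow_add hM0, Real.rpow_natCast, Real.rpow_natCast]
    ring
  refine hda.trans ?_
  rw [show -(w - ((n : ℝ) - 1) + 1) = -e by rw [he]; ring, mul_assoc (C2 * C)]
  refine mul_le_mul_of_nonneg_left ?_ (by positivity)
  have hf1 := one_le_height hf.ne_zero
  rw [Real.rpow_neg hM0.le, Real.rpow_neg (zero_le_one.trans hf1), ← div_eq_mul_inv, ← one_div,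
    div_le_div_iff₀ (Real.rpow_pos_of_pos hM0 _) (Real.rpow_pos_of_pos (by linarith) _), one_mul,
    ← Real.mul_rpow (by positivity) hM0.le]
  exact Real.rpow_le_rpow (by linarith)
    ((height_le_mahler hf.ne_zero h2).trans (mul_le_mul_of_nonneg_left hfM (by positivity))) he0.le

/-- Koksma's `A*`-numbers: `w* n = o (n)`. -/
def IsAStar (x : ℝ) : Prop :=
  ∀ ε : ℝ, 0 < ε → ∀ᶠ n : ℕ in atTop, koksmaExp n x ≤ ((ε * n : ℝ) : EReal)

/-- Koksma's `S*`-numbers: `w* n = O (n)`, not `o (n)`. -/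
def IsSStar (x : ℝ) : Prop :=
  ¬IsAStar x ∧ ∃ c : ℝ, ∀ n : ℕ, 0 < n → koksmaExp n x ≤ ((c * n : ℝ) : EReal)

/-- Koksma's `U*`-numbers: some `w* n` is infinite. -/
def IsUStar (x : ℝ) : Prop := ∃ n, koksmaExp n x = ⊤

/-- Koksma's `T*`-numbers: `w* n` is finite but not `O (n)`. -/
def IsTStar (x : ℝ) : Prop := ¬IsAStar x ∧ ¬IsSStar x ∧ ¬IsUStar x

theorem isAStar_iff {x : ℝ} : IsAStar x ↔ IsA x := by
  refine ⟨fun h => ?_, fun h ε hε => (h ε hε).mono fun n hn =>
    (koksmaExp_le_mahlerExp n x).trans hn⟩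
  rw [isA_iff_isAlgebraic]
  by_contra hx
  obtain ⟨n, hn, hn0⟩ := ((h (1 / 4) (by norm_num)).and (eventually_gt_atTop 0)).exists
  have h1 := EReal.coe_le_coe_iff.1 ((wirsing_le_koksmaExp hx hn0).trans hn)
  have : (0 : ℝ) < n := Nat.cast_pos.2 hn0
  linarith

theorem isSStar_iff {x : ℝ} : IsSStar x ↔ IsS x := by
  constructor
  · rintro ⟨hA, c, hc⟩
    have hx : Transcendental ℤ x := fun h => hA (isAStar_iff.2 (isA_iff_isAlgebraic.2 h))
    refine ⟨fun h => hA (isAStar_iff.2 h), c + 1, fun n hn =>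
      (mahlerExp_le_koksmaExp_add hx hn).trans ?_⟩
    refine (add_le_add_left (hc n hn) _).trans ?_
    rw [← EReal.coe_add, EReal.coe_le_coe_iff]
    linarith
  · rintro ⟨hA, c, hc⟩
    exact ⟨fun h => hA (isAStar_iff.1 h), c, fun n hn =>
      (koksmaExp_le_mahlerExp n x).trans (hc n hn)⟩

theorem isUStar_iff {x : ℝ} : IsUStar x ↔ IsU x := by
  constructor
  · rintro ⟨n, hn⟩
    exact ⟨n, top_le_iff.1 (hn ▸ koksmaExp_le_mahlerExp n x)⟩
  · rintro ⟨n, hn⟩
    have hx : Transcendental ℤ x := fun h => not_isU_of_isAlgebraic h ⟨n, hn⟩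
    have hn' : mahlerExp (n + 1) x = ⊤ := top_le_iff.1 (hn ▸ mahlerExp_le_succ n x)
    refine ⟨n + 1, by_contra fun hne => ?_⟩
    have h := hn' ▸ mahlerExp_le_koksmaExp_add hx (n := n + 1) (by omega)
    exact absurd (top_le_iff.1 h) (EReal.add_lt_top hne (EReal.coe_ne_top _)).ne

theorem isTStar_iff {x : ℝ} : IsTStar x ↔ IsT x :=
  and_congr (not_congr isAStar_iff) (and_congr (not_congr isSStar_iff) (not_congr isUStar_iff))

end FA.KoksmaClass
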